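import Fermat.Agent.S55.L.Concrete474.UnitBall

/-!
# S55, layer L (helper474): rings of integers of finite extensions of `ℚ_[q]`

`E` is a finite extension of `ℚ_[q]` and `B` is (a model of) the integral closure of `ℤ_[q]`
in `E` (`[IsIntegralClosure B ℤ_[q] E]`).  We prove:

* `mem_range_algebraMap_iff` : the image of `B` in `E` is the closed unit ball of the spectral norm;
* `isDomain`, `isFractionRing`, `isDedekindDomain`, `valuationRing`, `isLocalRing`,
  `not_isField`, `isDiscreteValuationRing`;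
* `finite_residueField` : the residue field of `B` is finite;
* `moduleFinite`, `moduleFree`, `finrank_eq` : `B` is free of rank `[E : ℚ_[q]]` over `ℤ_[q]`.

Everything is stated for an arbitrary model `B` of the integral closure, so that it applies to
`integralClosure ℤ_[q] E` as well as to any other AKLB-style setup.
-/

set_option linter.unusedSectionVars false
set_option linter.style.haveILetI false

namespace Fermat.Agent.S55.L.Concrete474

open IsLocalRing

section Padic

variable (q : ℕ) [Fact q.Prime]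

/-- The image of `ℤ_[q]` in `ℚ_[q]` is the closed unit ball. -/
theorem padicInt_range_iff (y : ℚ_[q]) :
    y ∈ Set.range (algebraMap ℤ_[q] ℚ_[q]) ↔ ‖y‖ ≤ 1 := by
  constructor
  · rintro ⟨a, rfl⟩
    exact a.2
  · intro h
    exact ⟨⟨y, h⟩, rfl⟩

variable (E : Type*) [Field E] [Algebra ℚ_[q] E] [FiniteDimensional ℚ_[q] E]

/-- The spectral norm on a finite extension of `ℚ_[q]` is multiplicative. -/
theorem nrm_mul (x y : E) :
    spectralNorm ℚ_[q] E (x * y) = spectralNorm ℚ_[q] E x * spectralNorm ℚ_[q] E y :=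
  spectralAlgNorm_mul x y

theorem nrm_one : spectralNorm ℚ_[q] E (1 : E) = 1 := spectralNorm_one

theorem nrm_zero : spectralNorm ℚ_[q] E (0 : E) = 0 := spectralNorm_zero

theorem nrm_nonneg (x : E) : 0 ≤ spectralNorm ℚ_[q] E x := spectralNorm_nonneg x

theorem nrm_pos {x : E} (hx : x ≠ 0) : 0 < spectralNorm ℚ_[q] E x :=
  spectralNorm_zero_lt hx (Algebra.IsAlgebraic.isAlgebraic x)

theorem nrm_eq_zero_iff {x : E} : spectralNorm ℚ_[q] E x = 0 ↔ x = 0 := by
  constructor
  · intro h
    by_contra hx
    exact (nrm_pos q E hx).ne' h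
  · rintro rfl
    exact nrm_zero q E

theorem nrm_pow (x : E) (n : ℕ) :
    spectralNorm ℚ_[q] E (x ^ n) = spectralNorm ℚ_[q] E x ^ n := by
  induction n with
  | zero => simp [nrm_one]
  | succ n ih => rw [pow_succ, nrm_mul, ih, pow_succ]

theorem nrm_inv (x : E) :
    spectralNorm ℚ_[q] E x⁻¹ = (spectralNorm ℚ_[q] E x)⁻¹ := by
  rcases eq_or_ne x 0 with rfl | hx
  · simp [nrm_zero]
  · have h := nrm_mul q E x x⁻¹
    rw [mul_inv_cancel₀ hx, nrm_one] at h
    exact eq_inv_of_mul_eq_one_right h.symm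

theorem nrm_div (x y : E) :
    spectralNorm ℚ_[q] E (x / y) = spectralNorm ℚ_[q] E x / spectralNorm ℚ_[q] E y := by
  rw [div_eq_mul_inv, nrm_mul, nrm_inv, div_eq_mul_inv]

theorem nrm_neg (x : E) : spectralNorm ℚ_[q] E (-x) = spectralNorm ℚ_[q] E x :=
  spectralNorm_neg (Algebra.IsAlgebraic.isAlgebraic x)

theorem nrm_add_le_max (x y : E) :
    spectralNorm ℚ_[q] E (x + y) ≤ max (spectralNorm ℚ_[q] E x) (spectralNorm ℚ_[q] E y) :=
  isNonarchimedean_spectralNorm x y

theorem nrm_sub_le_max (x y : E) :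
    spectralNorm ℚ_[q] E (x - y) ≤ max (spectralNorm ℚ_[q] E x) (spectralNorm ℚ_[q] E y) := by
  rw [sub_eq_add_neg]
  exact (nrm_add_le_max q E x (-y)).trans (by rw [nrm_neg])

theorem nrm_algebraMap (a : ℚ_[q]) : spectralNorm ℚ_[q] E (algebraMap ℚ_[q] E a) = ‖a‖ :=
  spectralNorm_extends a

theorem nrm_natCast_self : spectralNorm ℚ_[q] E (q : E) = (q : ℝ)⁻¹ := by
  have h := nrm_algebraMap q E (q : ℚ_[q])
  rwa [map_natCast, Padic.norm_p] at h

variable [Algebra ℤ_[q] E] [IsScalarTower ℤ_[q] ℚ_[q] E]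
  (B : Type*) [CommRing B] [Algebra B E] [IsIntegralClosure B ℤ_[q] E]

include q E

theorem isTorsionFree_padicInt : Module.IsTorsionFree ℤ_[q] E :=
  Module.IsTorsionFree.trans_faithfulSMul ℤ_[q] ℚ_[q] E

/-- The image of the ring of integers `B` in `E` is the closed unit ball of the spectral norm. -/
theorem mem_range_algebraMap_iff (x : E) :
    x ∈ Set.range (algebraMap B E) ↔ spectralNorm ℚ_[q] E x ≤ 1 := by
  rw [← isIntegral_iff_spectralNorm_le_one (A := ℤ_[q]) (padicInt_range_iff q)
    (Algebra.IsIntegral.isIntegral x)]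
  exact (IsIntegralClosure.isIntegral_iff (A := B)).symm

theorem nrm_algebraMap_le_one (b : B) : spectralNorm ℚ_[q] E (algebraMap B E b) ≤ 1 :=
  (mem_range_algebraMap_iff q E B _).mp ⟨b, rfl⟩

theorem exists_of_nrm_le_one {x : E} (hx : spectralNorm ℚ_[q] E x ≤ 1) :
    ∃ b : B, algebraMap B E b = x :=
  (mem_range_algebraMap_iff q E B x).mpr hx

theorem algebraMap_injective : Function.Injective (algebraMap B E) :=
  IsIntegralClosure.algebraMap_injective B ℤ_[q] E

theorem isDomain : IsDomain B :=
  (algebraMap_injective q E B).isDomain (algebraMap B E)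

/-- A unit of `B` has norm one. -/
theorem nrm_eq_one_of_isUnit {b : B} (hb : IsUnit b) :
    spectralNorm ℚ_[q] E (algebraMap B E b) = 1 := by
  obtain ⟨u, rfl⟩ := hb
  have h1 := nrm_algebraMap_le_one q E B (u : B)
  have h2 := nrm_algebraMap_le_one q E B ((u⁻¹ : Bˣ) : B)
  have h3 : spectralNorm ℚ_[q] E (algebraMap B E (u : B)) *
      spectralNorm ℚ_[q] E (algebraMap B E ((u⁻¹ : Bˣ) : B)) = 1 := by
    rw [← nrm_mul, ← map_mul, Units.mul_inv, map_one, nrm_one]
  have h4 := nrm_nonneg q E (algebraMap B E (u : B))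
  have h5 := nrm_nonneg q E (algebraMap B E ((u⁻¹ : Bˣ) : B))
  nlinarith

/-- An element of `B` of norm one is a unit. -/
theorem isUnit_of_nrm_eq_one {b : B} (hb : spectralNorm ℚ_[q] E (algebraMap B E b) = 1) :
    IsUnit b := by
  have hinv : spectralNorm ℚ_[q] E (algebraMap B E b)⁻¹ ≤ 1 := by
    rw [nrm_inv, hb, inv_one]
  obtain ⟨c, hc⟩ := exists_of_nrm_le_one q E B hinv
  have hb0 : algebraMap B E b ≠ 0 := by
    intro h0
    rw [h0, nrm_zero] at hb
    exact zero_ne_one hb
  refine IsUnit.of_mul_eq_one c ?_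
  apply algebraMap_injective q E B
  rw [map_mul, hc, map_one, mul_inv_cancel₀ hb0]

theorem isUnit_iff_nrm_eq_one {b : B} :
    IsUnit b ↔ spectralNorm ℚ_[q] E (algebraMap B E b) = 1 :=
  ⟨nrm_eq_one_of_isUnit q E B, isUnit_of_nrm_eq_one q E B⟩

variable [Algebra ℤ_[q] B] [IsScalarTower ℤ_[q] B E]

theorem isFractionRing : IsFractionRing B E :=
  haveI := isDomain q E B
  IsIntegralClosure.isFractionRing_of_finite_extension ℤ_[q] ℚ_[q] E B

theorem isDedekindDomain : IsDedekindDomain B :=
  haveI := isDomain q E B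
  IsIntegralClosure.isDedekindDomain ℤ_[q] ℚ_[q] E B

theorem moduleFinite : Module.Finite ℤ_[q] B :=
  IsIntegralClosure.finite ℤ_[q] ℚ_[q] E B

theorem moduleFree : Module.Free ℤ_[q] B :=
  haveI := isTorsionFree_padicInt q E
  IsIntegralClosure.module_free ℤ_[q] ℚ_[q] E B

theorem finrank_eq : Module.finrank ℤ_[q] B = Module.finrank ℚ_[q] E :=
  haveI := isTorsionFree_padicInt q E
  IsIntegralClosure.rank ℤ_[q] ℚ_[q] E B

theorem valuationRing [IsDomain B] : ValuationRing B := by
  haveI := isFractionRing q E B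
  rw [ValuationRing.iff_isInteger_or_isInteger B E]
  intro x
  rcases le_total (spectralNorm ℚ_[q] E x) 1 with h | h
  · left
    obtain ⟨b, hb⟩ := exists_of_nrm_le_one q E B h
    exact ⟨b, hb⟩
  · right
    have h' : spectralNorm ℚ_[q] E x⁻¹ ≤ 1 := by
      rw [nrm_inv]
      exact inv_le_one_of_one_le₀ h
    obtain ⟨b, hb⟩ := exists_of_nrm_le_one q E B h'
    exact ⟨b, hb⟩

theorem isLocalRing : IsLocalRing B :=
  haveI := isDomain q E B
  haveI := valuationRing q E B
  inferInstance

theorem algebraMap_padicInt_injective : Function.Injective (algebraMap ℤ_[q] B) := by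
  have h : Function.Injective (algebraMap ℤ_[q] E) := by
    rw [IsScalarTower.algebraMap_eq ℤ_[q] ℚ_[q] E]
    exact (algebraMap ℚ_[q] E).injective.comp (IsFractionRing.injective ℤ_[q] ℚ_[q])
  rw [IsScalarTower.algebraMap_eq ℤ_[q] B E] at h
  exact Function.Injective.of_comp h

theorem not_isField : ¬ IsField B := by
  haveI := isDomain q E B
  haveI : Algebra.IsIntegral ℤ_[q] B := IsIntegralClosure.isIntegral_algebra ℤ_[q] E
  intro h
  exact IsDiscreteValuationRing.not_isField ℤ_[q]
    ((Algebra.IsIntegral.isField_iff_isField (algebraMap_padicInt_injective q E B)).mpr h)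

/-- **The ring of integers of a finite extension of `ℚ_[q]` is a discrete valuation ring.** -/
theorem isDiscreteValuationRing [IsDomain B] : IsDiscreteValuationRing B := by
  haveI := isLocalRing q E B
  haveI := isDedekindDomain q E B
  have h := (IsDiscreteValuationRing.TFAE B (not_isField q E B)).out 0 2
  exact h.mpr (isDedekindDomain q E B)

/-- **The residue field of the ring of integers of a finite extension of `ℚ_[q]` is finite.** -/
theorem finite_residueField [IsLocalRing B] : Finite (ResidueField B) := by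
  haveI := isDomain q E B
  haveI := moduleFinite q E B
  haveI : Algebra.IsIntegral ℤ_[q] B := IsIntegralClosure.isIntegral_algebra ℤ_[q] E
  haveI : FaithfulSMul ℤ_[q] B :=
    (faithfulSMul_iff_algebraMap_injective ℤ_[q] B).mpr (algebraMap_padicInt_injective q E B)
  exact IsLocalRing.ResidueField.finite_of_finite (R := ℤ_[q]) (S := B) inferInstance

end Padic

end Fermat.Agent.S55.L.Concrete474
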