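import Fermat.Agent.S55.L.Concrete474.Basic

/-!
# S55, layer L (helper474): rings of integers of finite extensions of `ℚ_[q]` are complete

`E` is a finite extension of `ℚ_[q]` and `B` is (a model of) the integral closure of `ℤ_[q]`
in `E`.  We prove:

* `dvd_iff_nrm_le` : divisibility in `B` is detected by the spectral norm;
* `mem_maximalIdeal_iff` : the maximal ideal is the open unit ball;
* `mem_maximalIdeal_pow_iff` : `𝔪 ^ n` is the closed ball of radius `‖π‖ ^ n`;
* `isAdicComplete` : `B` is `𝔪`-adically complete.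
-/

set_option linter.unusedSectionVars false
set_option linter.style.haveILetI false

namespace Fermat.Agent.S55.L.Concrete474

open IsLocalRing

section Padic

variable (q : ℕ) [Fact q.Prime]
variable (E : Type*) [Field E] [Algebra ℚ_[q] E] [FiniteDimensional ℚ_[q] E]
variable [Algebra ℤ_[q] E] [IsScalarTower ℤ_[q] ℚ_[q] E]
  (B : Type*) [CommRing B] [Algebra B E] [IsIntegralClosure B ℤ_[q] E]

include q E

/-- Divisibility in the ring of integers is detected by the norm. -/
theorem dvd_iff_nrm_le {a b : B} (ha : a ≠ 0) :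
    a ∣ b ↔ spectralNorm ℚ_[q] E (algebraMap B E b) ≤ spectralNorm ℚ_[q] E (algebraMap B E a) := by
  have ha' : algebraMap B E a ≠ 0 := fun h =>
    ha (algebraMap_injective q E B (by rw [h, map_zero]))
  have hpos := nrm_pos q E ha'
  constructor
  · rintro ⟨c, rfl⟩
    rw [map_mul, nrm_mul]
    exact mul_le_of_le_one_right hpos.le (nrm_algebraMap_le_one q E B c)
  · intro h
    have h1 : spectralNorm ℚ_[q] E (algebraMap B E b / algebraMap B E a) ≤ 1 := by
      rw [nrm_div]
      exact div_le_one_of_le₀ h hpos.le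
    obtain ⟨c, hc⟩ := exists_of_nrm_le_one q E B h1
    refine ⟨c, algebraMap_injective q E B ?_⟩
    rw [map_mul, hc, mul_div_cancel₀ _ ha']

/-- The maximal ideal of the ring of integers is the open unit ball. -/
theorem mem_maximalIdeal_iff [IsLocalRing B] {b : B} :
    b ∈ maximalIdeal B ↔ spectralNorm ℚ_[q] E (algebraMap B E b) < 1 := by
  rw [mem_maximalIdeal, mem_nonunits_iff, isUnit_iff_nrm_eq_one q E B]
  have := nrm_algebraMap_le_one q E B b
  constructor
  · intro h
    exact lt_of_le_of_ne this h
  · intro h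
    exact h.ne

/-- The norm of an irreducible element (uniformizer) is in `(0, 1)`. -/
theorem nrm_irreducible_lt_one {ϖ : B} (h : Irreducible ϖ) :
    spectralNorm ℚ_[q] E (algebraMap B E ϖ) < 1 := by
  have h1 := nrm_algebraMap_le_one q E B ϖ
  refine lt_of_le_of_ne h1 fun h2 => h.not_isUnit (isUnit_of_nrm_eq_one q E B h2)

theorem nrm_irreducible_pos {ϖ : B} (h : Irreducible ϖ) :
    0 < spectralNorm ℚ_[q] E (algebraMap B E ϖ) :=
  nrm_pos q E fun h0 => h.ne_zero (algebraMap_injective q E B (by rw [h0, map_zero]))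

/-- Powers of the maximal ideal are closed balls. -/
theorem mem_maximalIdeal_pow_iff [IsDomain B] [IsDiscreteValuationRing B] {ϖ : B}
    (h : Irreducible ϖ) (n : ℕ) {b : B} :
    b ∈ maximalIdeal B ^ n ↔
      spectralNorm ℚ_[q] E (algebraMap B E b) ≤ spectralNorm ℚ_[q] E (algebraMap B E ϖ) ^ n := by
  rw [h.maximalIdeal_eq, Ideal.span_singleton_pow, Ideal.mem_span_singleton,
    dvd_iff_nrm_le q E B (pow_ne_zero n h.ne_zero), map_pow, nrm_pow]

/-- **The ring of integers of a finite extension of `ℚ_[q]` is precomplete for the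
`𝔪`-adic topology.** -/
theorem isPrecomplete [IsDomain B] [IsDiscreteValuationRing B] :
    IsPrecomplete (maximalIdeal B) B := by
  obtain ⟨ϖ, hϖ⟩ := IsDiscreteValuationRing.exists_irreducible B
  set c : ℝ := spectralNorm ℚ_[q] E (algebraMap B E ϖ) with hc
  have hc0 : 0 < c := nrm_irreducible_pos q E B hϖ
  have hc1 : c < 1 := nrm_irreducible_lt_one q E B hϖ
  refine ⟨fun f hf => ?_⟩
  -- the sequence `f` is Cauchy for the spectral norm
  have hf' : ∀ {m n : ℕ}, m ≤ n →
      spectralNorm ℚ_[q] E (algebraMap B E (f m) - algebraMap B E (f n)) ≤ c ^ m := by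
    intro m n hmn
    have h1 := hf hmn
    rw [SModEq.sub_mem, smul_eq_mul, Ideal.mul_top] at h1
    rw [← map_sub]
    exact (mem_maximalIdeal_pow_iff q E B hϖ m).mp h1
  letI : NormedField E := spectralNorm.normedField ℚ_[q] E
  haveI : CompleteSpace E := spectralNorm.completeSpace ℚ_[q] E
  have hdist : ∀ x y : E, dist x y = spectralNorm ℚ_[q] E (x - y) := fun x y => rfl
  have hcau : CauchySeq fun n => algebraMap B E (f n) := by
    refine cauchySeq_of_le_geometric c 1 hc1 fun n => ?_
    rw [hdist, one_mul]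
    exact hf' (Nat.le_succ n)
  obtain ⟨L', hL'⟩ := cauchySeq_tendsto_of_complete hcau
  have hbound : ∀ m, spectralNorm ℚ_[q] E (algebraMap B E (f m) - L') ≤ c ^ m := by
    intro m
    have ht : Filter.Tendsto (fun n => dist (algebraMap B E (f m)) (algebraMap B E (f n)))
        Filter.atTop (nhds (dist (algebraMap B E (f m)) L')) :=
      tendsto_const_nhds.dist hL'
    rw [← hdist]
    refine le_of_tendsto ht (Filter.eventually_atTop.mpr ⟨m, fun n hn => ?_⟩)
    rw [hdist]
    exact hf' hn
  have hL1 : spectralNorm ℚ_[q] E L' ≤ 1 := by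
    have h0 := hbound 0
    rw [pow_zero] at h0
    have h1 := nrm_sub_le_max q E (algebraMap B E (f 0)) (algebraMap B E (f 0) - L')
    rw [sub_sub_cancel] at h1
    exact h1.trans (max_le (nrm_algebraMap_le_one q E B _) h0)
  obtain ⟨L, hL⟩ := exists_of_nrm_le_one q E B hL1
  refine ⟨L, fun n => ?_⟩
  rw [SModEq.sub_mem, smul_eq_mul, Ideal.mul_top, mem_maximalIdeal_pow_iff q E B hϖ n,
    map_sub, hL]
  exact hbound n

/-- **The ring of integers of a finite extension of `ℚ_[q]` is `𝔪`-adically complete.** -/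
theorem isAdicComplete [IsDomain B] [IsDiscreteValuationRing B] :
    IsAdicComplete (maximalIdeal B) B :=
  haveI : IsHausdorff (maximalIdeal B) B := inferInstance
  haveI := isPrecomplete q E B
  { }

end Padic

end Fermat.Agent.S55.L.Concrete474
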