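import Mathlib

/-!
# S55, layer L (helper474): the unit ball of the spectral norm is the integral closure

Let `K` be a complete nontrivially normed ultrametric field, `A` an integrally closed ring with
fraction field `K` whose image in `K` is the closed unit ball, and `L/K` an algebraic extension.
Then an element `x : L` is integral over `A` iff its spectral norm is `≤ 1`.
-/

namespace Fermat.Agent.S55.L.Concrete474

open Polynomial

section UnitBall

variable {A K L : Type*} [CommRing A] [NontriviallyNormedField K] [Algebra A K]
  [Field L] [Algebra K L] [Algebra A L] [IsScalarTower A K L]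

/-- If the minimal polynomial of `x` over `K` has all coefficients in the image of `A`,
then `x` is integral over `A`. -/
theorem isIntegral_of_minpoly_coeff_mem_range {x : L} (hx : IsIntegral K x)
    (h : ∀ n, (minpoly K x).coeff n ∈ Set.range (algebraMap A K)) : IsIntegral A x := by
  have hl : minpoly K x ∈ Polynomial.lifts (algebraMap A K) :=
    (Polynomial.lifts_iff_coeff_lifts _).mpr h
  obtain ⟨P, hPmap, -, hPmonic⟩ :=
    Polynomial.lifts_and_natDegree_eq_and_monic hl (minpoly.monic hx)
  refine ⟨P, hPmonic, ?_⟩
  have h0 : Polynomial.aeval x (minpoly K x) = 0 := minpoly.aeval K x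
  rw [← hPmap, Polynomial.aeval_map_algebraMap] at h0
  simpa [Polynomial.aeval_def] using h0

variable [IsDomain A] [IsIntegrallyClosed A] [IsFractionRing A K]

/-- Coefficients of the minimal polynomial over `K` of an `A`-integral element lie in `A`. -/
theorem minpoly_coeff_mem_range_of_isIntegral {x : L} (hx : IsIntegral A x) (n : ℕ) :
    (minpoly K x).coeff n ∈ Set.range (algebraMap A K) := by
  rw [minpoly.isIntegrallyClosed_eq_field_fractions' K hx, Polynomial.coeff_map]
  exact ⟨_, rfl⟩

/-- **Unit ball = integral closure.**  If the image of `A` in `K` is the closed unit ball,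
then for an element `x` of an algebraic extension `L/K`: `x` is integral over `A` iff its
spectral norm is at most one. -/
theorem isIntegral_iff_spectralNorm_le_one
    (hA : ∀ y : K, y ∈ Set.range (algebraMap A K) ↔ ‖y‖ ≤ 1) {x : L} (hx : IsIntegral K x) :
    IsIntegral A x ↔ spectralNorm K L x ≤ 1 := by
  rw [spectralNorm, spectralValue_le_one_iff (minpoly.monic hx)]
  constructor
  · intro h n
    exact (hA _).mp (minpoly_coeff_mem_range_of_isIntegral h n)
  · intro h
    exact isIntegral_of_minpoly_coeff_mem_range hx fun n => (hA _).mpr (h n)

end UnitBall

end Fermat.Agent.S55.L.Concrete474
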